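import Mathlib

/-!
# Integer lemmas for the 2-descent on `y^2 = x (x - 1) (x - 81)`

Elementary facts about integers used by the descent: factorisation of a square into two
factors with controlled gcd, and a few congruence obstructions.
-/

namespace Fermat.Agent.S51.D

/-- If `A * B = w ^ 2` with `w ≠ 0`, then up to a common sign `A = g a²`, `B = g b²`
with `g = gcd A B`. -/
theorem sq_factor (A B w : ℤ) (hw : w ≠ 0) (h : A * B = w ^ 2) :
    ∃ a b : ℤ, a ≠ 0 ∧ b ≠ 0 ∧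
      ((A = (Int.gcd A B : ℤ) * a ^ 2 ∧ B = (Int.gcd A B : ℤ) * b ^ 2) ∨
       (A = -((Int.gcd A B : ℤ) * a ^ 2) ∧ B = -((Int.gcd A B : ℤ) * b ^ 2))) := by
  have hAB : A * B ≠ 0 := by rw [h]; positivity
  have hA : A ≠ 0 := left_ne_zero_of_mul hAB
  have hB : B ≠ 0 := right_ne_zero_of_mul hAB
  have hgpos : 0 < Int.gcd A B := Int.gcd_pos_of_ne_zero_left _ hA
  obtain ⟨A', B', hcop, hA', hB'⟩ := Int.exists_gcd_one hgpos
  set g : ℤ := (Int.gcd A B : ℤ) with hg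
  have hg0 : g ≠ 0 := by rw [hg]; exact_mod_cast hgpos.ne'
  have hA'0 : A' ≠ 0 := by rintro rfl; simp at hA'; exact hA hA'
  have hB'0 : B' ≠ 0 := by rintro rfl; simp at hB'; exact hB hB'
  have hgw : g ∣ w := by
    have h2 : g ^ 2 ∣ w ^ 2 := ⟨A' * B', by rw [← h, hA', hB']; ring⟩
    exact (Int.pow_dvd_pow_iff (by norm_num)).mp h2
  obtain ⟨w', rfl⟩ := hgw
  have hw'0 : w' ≠ 0 := by rintro rfl; simp at hw
  have hprod : A' * B' = w' ^ 2 := by
    have h3 : g ^ 2 * (A' * B') = g ^ 2 * w' ^ 2 := by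
      rw [hA', hB'] at h; linear_combination h
    exact mul_left_cancel₀ (pow_ne_zero 2 hg0) h3
  obtain ⟨a, ha⟩ := Int.sq_of_gcd_eq_one hcop hprod
  have hcop' : Int.gcd B' A' = 1 := by rw [Int.gcd_comm]; exact hcop
  obtain ⟨b, hb⟩ := Int.sq_of_gcd_eq_one hcop' (by rw [mul_comm]; exact hprod)
  have ha0 : a ≠ 0 := by
    rintro rfl; rcases ha with ha | ha <;> simp at ha <;> exact hA'0 ha
  have hb0 : b ≠ 0 := by
    rintro rfl; rcases hb with hb | hb <;> simp at hb <;> exact hB'0 hb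
  have hw'pos : 0 < w' ^ 2 := by positivity
  have hapos : 0 < a ^ 2 := by positivity
  have hbpos : 0 < b ^ 2 := by positivity
  refine ⟨a, b, ha0, hb0, ?_⟩
  rcases ha with ha | ha <;> rcases hb with hb | hb
  · left; exact ⟨by rw [hA', ha]; ring, by rw [hB', hb]; ring⟩
  · exfalso; rw [ha, hb] at hprod; nlinarith
  · exfalso; rw [ha, hb] at hprod; nlinarith
  · right; exact ⟨by rw [hA', ha]; ring, by rw [hB', hb]; ring⟩

/-- Divisors of `81` are `d * k²` with `d ∈ {1, 3}`. -/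
theorem dvd_81_cases (g : ℕ) (hg : g ∣ 81) :
    ∃ d k : ℕ, (d = 1 ∨ d = 3) ∧ k ≠ 0 ∧ g = d * k ^ 2 := by
  have hmem : g ∈ Nat.divisors 81 := Nat.mem_divisors.mpr ⟨hg, by norm_num⟩
  have hdiv : Nat.divisors 81 = {1, 3, 9, 27, 81} := by decide
  rw [hdiv] at hmem
  simp only [Finset.mem_insert, Finset.mem_singleton] at hmem
  rcases hmem with rfl | rfl | rfl | rfl | rfl
  · exact ⟨1, 1, by norm_num, by norm_num, by norm_num⟩
  · exact ⟨3, 1, by norm_num, by norm_num, by norm_num⟩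
  · exact ⟨1, 3, by norm_num, by norm_num, by norm_num⟩
  · exact ⟨3, 3, by norm_num, by norm_num, by norm_num⟩
  · exact ⟨1, 9, by norm_num, by norm_num, by norm_num⟩

/-- Divisors of `80` are `d * k²` with `d ∈ {1, 2, 5, 10}`. -/
theorem dvd_80_cases (g : ℕ) (hg : g ∣ 80) :
    ∃ d k : ℕ, (d = 1 ∨ d = 2 ∨ d = 5 ∨ d = 10) ∧ k ≠ 0 ∧ g = d * k ^ 2 := by
  have hmem : g ∈ Nat.divisors 80 := Nat.mem_divisors.mpr ⟨hg, by norm_num⟩
  have hdiv : Nat.divisors 80 = {1, 2, 4, 5, 8, 10, 16, 20, 40, 80} := by decide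
  rw [hdiv] at hmem
  simp only [Finset.mem_insert, Finset.mem_singleton] at hmem
  rcases hmem with rfl | rfl | rfl | rfl | rfl | rfl | rfl | rfl | rfl | rfl
  · exact ⟨1, 1, by norm_num, by norm_num, by norm_num⟩
  · exact ⟨2, 1, by norm_num, by norm_num, by norm_num⟩
  · exact ⟨1, 2, by norm_num, by norm_num, by norm_num⟩
  · exact ⟨5, 1, by norm_num, by norm_num, by norm_num⟩
  · exact ⟨2, 2, by norm_num, by norm_num, by norm_num⟩
  · exact ⟨10, 1, by norm_num, by norm_num, by norm_num⟩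
  · exact ⟨1, 4, by norm_num, by norm_num, by norm_num⟩
  · exact ⟨5, 2, by norm_num, by norm_num, by norm_num⟩
  · exact ⟨10, 2, by norm_num, by norm_num, by norm_num⟩
  · exact ⟨5, 4, by norm_num, by norm_num, by norm_num⟩

theorem sq_odd_mod_eight (x : ℤ) (h : x % 2 = 1) : x ^ 2 % 8 = 1 := by
  obtain ⟨k, rfl⟩ : ∃ k, x = 2 * k + 1 := ⟨x / 2, by omega⟩
  obtain ⟨j, hj⟩ := Int.even_mul_succ_self k
  have : (2 * k + 1) ^ 2 = 8 * j + 1 := by linear_combination 4 * hj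
  omega

theorem sq_mod_four (x : ℤ) : x ^ 2 % 4 = 0 ∨ x ^ 2 % 4 = 1 := by
  rcases Int.emod_two_eq_zero_or_one x with h | h
  · left
    obtain ⟨k, rfl⟩ : ∃ k, x = 2 * k := ⟨x / 2, by omega⟩
    have : (2 * k) ^ 2 = 4 * k ^ 2 := by ring
    omega
  · right
    have := sq_odd_mod_eight x h
    omega

/-- The classes `±2`, `±10` are not in the image of the descent map. -/
theorem no_even_class (c : ℤ) (hc : c = 2 ∨ c = -2 ∨ c = 10 ∨ c = -10)
    (r e u v : ℤ) (hcop : Int.gcd r e = 1)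
    (h1 : r ^ 2 - e ^ 2 = c * u ^ 2) (h2 : r ^ 2 - 81 * e ^ 2 = c * v ^ 2) : False := by
  have hr4 := sq_mod_four r
  have he4 := sq_mod_four e
  have hu4 := sq_mod_four u
  have hv4 := sq_mod_four v
  -- `r` and `e` are both odd
  have hr : r % 2 = 1 := by
    by_contra hr
    have hr0 : r % 2 = 0 := by omega
    obtain ⟨k, rfl⟩ : ∃ k, r = 2 * k := ⟨r / 2, by omega⟩
    have hk : (2 * k) ^ 2 = 4 * k ^ 2 := by ring
    rcases Int.emod_two_eq_zero_or_one e with he | he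
    · have hdvd : (2 : ℤ) ∣ Int.gcd (2 * k) e :=
        Int.dvd_coe_gcd ⟨k, rfl⟩ (Int.dvd_of_emod_eq_zero he)
      rw [hcop] at hdvd
      norm_num at hdvd
    · have := sq_odd_mod_eight e he
      rcases hc with rfl | rfl | rfl | rfl <;> omega
  have he : e % 2 = 1 := by
    by_contra he
    have he0 : e % 2 = 0 := by omega
    obtain ⟨k, rfl⟩ : ∃ k, e = 2 * k := ⟨e / 2, by omega⟩
    have hk : (2 * k) ^ 2 = 4 * k ^ 2 := by ring
    have := sq_odd_mod_eight r hr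
    rcases hc with rfl | rfl | rfl | rfl <;> omega
  have hr8 := sq_odd_mod_eight r hr
  have he8 := sq_odd_mod_eight e he
  have hu : u % 2 = 0 := by
    by_contra hu
    have := sq_odd_mod_eight u (by omega)
    rcases hc with rfl | rfl | rfl | rfl <;> omega
  have hv : v % 2 = 0 := by
    by_contra hv
    have := sq_odd_mod_eight v (by omega)
    rcases hc with rfl | rfl | rfl | rfl <;> omega
  obtain ⟨u₁, rfl⟩ : ∃ k, u = 2 * k := ⟨u / 2, by omega⟩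
  obtain ⟨v₁, rfl⟩ : ∃ k, v = 2 * k := ⟨v / 2, by omega⟩
  have hu1 : (2 * u₁) ^ 2 = 4 * u₁ ^ 2 := by ring
  have hv1 : (2 * v₁) ^ 2 = 4 * v₁ ^ 2 := by ring
  have hu14 := sq_mod_four u₁
  have hv14 := sq_mod_four v₁
  rcases hc with rfl | rfl | rfl | rfl <;> omega

/-- Exclusion of the class `3` for the `x`-coordinate. -/
theorem three_dvd_of_eq (r e t : ℤ)
    (h : (3 * r ^ 2 - e ^ 2) * (r ^ 2 - 27 * e ^ 2) = t ^ 2) : (3 : ℤ) ∣ e := by
  by_contra he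
  have he' : ((e : ℤ) : ZMod 3) ≠ 0 := by
    rwa [Ne, ZMod.intCast_zmod_eq_zero_iff_dvd]
  have key1 : ∀ r e t : ZMod 3, (3 * r ^ 2 - e ^ 2) * (r ^ 2 - 27 * e ^ 2) = t ^ 2 →
      e = 0 ∨ (r = 0 ∧ t = 0) := by decide
  have key2 : ∀ r e t : ZMod 3, (27 * r ^ 2 - e ^ 2) * (r ^ 2 - 3 * e ^ 2) = t ^ 2 →
      e = 0 ∨ (r = 0 ∧ t = 0) := by decide
  have key3 : ∀ r e t : ZMod 3, 3 * t ^ 2 = (243 * r ^ 2 - e ^ 2) * (3 * r ^ 2 - e ^ 2) →
      e = 0 := by decide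
  have h1 := key1 r e t (by exact_mod_cast congrArg (Int.cast : ℤ → ZMod 3) h)
  rcases h1 with h1 | ⟨hr, ht⟩
  · exact he' h1
  rw [ZMod.intCast_zmod_eq_zero_iff_dvd] at hr ht
  obtain ⟨r₁, rfl⟩ := hr
  obtain ⟨t₁, rfl⟩ := ht
  have h' : (27 * r₁ ^ 2 - e ^ 2) * (r₁ ^ 2 - 3 * e ^ 2) = t₁ ^ 2 := by
    have : (9 : ℤ) * ((27 * r₁ ^ 2 - e ^ 2) * (r₁ ^ 2 - 3 * e ^ 2)) = 9 * t₁ ^ 2 := by
      linear_combination h
    exact mul_left_cancel₀ (by norm_num) this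
  have h2 := key2 r₁ e t₁ (by exact_mod_cast congrArg (Int.cast : ℤ → ZMod 3) h')
  rcases h2 with h2 | ⟨hr, ht⟩
  · exact he' h2
  rw [ZMod.intCast_zmod_eq_zero_iff_dvd] at hr ht
  obtain ⟨r₂, rfl⟩ := hr
  obtain ⟨t₂, rfl⟩ := ht
  have h'' : 3 * t₂ ^ 2 = (243 * r₂ ^ 2 - e ^ 2) * (3 * r₂ ^ 2 - e ^ 2) := by
    have : (3 : ℤ) * (3 * t₂ ^ 2) = 3 * ((243 * r₂ ^ 2 - e ^ 2) * (3 * r₂ ^ 2 - e ^ 2)) := by
      linear_combination -h'
    exact mul_left_cancel₀ (by norm_num) this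
  exact he' (key3 r₂ e t₂ (by exact_mod_cast congrArg (Int.cast : ℤ → ZMod 3) h''))

end Fermat.Agent.S51.D
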