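import Mathlib
import Fermat.Agent.S51.D.IntLemmas

/-!
# Classification step of the 2-descent on `y^2 = x (x - 1) (x - 81)`

For a rational point with `y ≠ 0`, `x` is a square and `x - 1`, `x - 81` are squares up to a
common factor `c ∈ {1, -1, 5, -5}`.
-/

namespace Fermat.Agent.S51.D

/-- A rational whose square is an integer is an integer. -/
theorem rat_eq_int_of_sq (Y : ℚ) (n : ℤ) (h : Y ^ 2 = n) : ∃ w : ℤ, Y = w := by
  have hden : (Y ^ 2).den = 1 := by rw [h]; exact Rat.den_intCast n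
  rw [Rat.den_pow] at hden
  have h1 : Y.den = 1 := (Nat.pow_eq_one.mp hden).resolve_right (by norm_num)
  exact ⟨Y.num, ((Rat.den_eq_one_iff Y).mp h1).symm⟩

/-- Integer form of the classification. -/
theorem classify_int (p q w : ℤ) (hq : 0 < q) (hcop : IsCoprime p q) (hw : w ≠ 0)
    (h : w ^ 2 = q * (p * ((p - q) * (p - 81 * q)))) :
    ∃ (c r e u v : ℤ), (c = 1 ∨ c = -1 ∨ c = 5 ∨ c = -5) ∧ e ≠ 0 ∧ q = e ^ 2 ∧ p = r ^ 2 ∧
      r ^ 2 - e ^ 2 = c * u ^ 2 ∧ r ^ 2 - 81 * e ^ 2 = c * v ^ 2 := by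
  -- Step 1: `q` is a square.
  have hcop1 : IsCoprime q (p * ((p - q) * (p - 81 * q))) := by
    have h1 : IsCoprime q p := hcop.symm
    have h2 : IsCoprime q (p - q) := by
      have h := h1.add_mul_left_right (-1)
      have e : p + q * -1 = p - q := by ring
      rwa [e] at h
    have h3 : IsCoprime q (p - 81 * q) := by
      have h := h1.add_mul_left_right (-81)
      have e : p + q * -81 = p - 81 * q := by ring
      rwa [e] at h
    exact h1.mul_right (h2.mul_right h3)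
  obtain ⟨e, he⟩ := Int.sq_of_isCoprime hcop1 h.symm
  have he' : q = e ^ 2 := by
    rcases he with he | he
    · exact he
    · exfalso
      have : 0 ≤ e ^ 2 := sq_nonneg e
      omega
  subst he'
  have he0 : e ≠ 0 := by
    rintro rfl
    simp at hq
  have hew : e ∣ w := by
    have : e ^ 2 ∣ w ^ 2 := ⟨p * ((p - e ^ 2) * (p - 81 * e ^ 2)), h⟩
    exact (Int.pow_dvd_pow_iff (by norm_num)).mp this
  obtain ⟨w₁, rfl⟩ := hew
  have hw₁ : w₁ ≠ 0 := by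
    rintro rfl
    simp at hw
  have h' : p * ((p - e ^ 2) * (p - 81 * e ^ 2)) = w₁ ^ 2 := by
    have : e ^ 2 * (p * ((p - e ^ 2) * (p - 81 * e ^ 2))) = e ^ 2 * w₁ ^ 2 := by
      linear_combination -h
    exact mul_left_cancel₀ (pow_ne_zero 2 he0) this
  -- Step 2: `p` is a square.
  obtain ⟨a, b, ha0, hb0, hab⟩ := sq_factor p ((p - e ^ 2) * (p - 81 * e ^ 2)) w₁ hw₁ h'
  have hg81 : Int.gcd p ((p - e ^ 2) * (p - 81 * e ^ 2)) ∣ 81 := by
    have hgp : (Int.gcd p ((p - e ^ 2) * (p - 81 * e ^ 2)) : ℤ) ∣ p := Int.gcd_dvd_left _ _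
    have hgB : (Int.gcd p ((p - e ^ 2) * (p - 81 * e ^ 2)) : ℤ) ∣
        (p - e ^ 2) * (p - 81 * e ^ 2) := Int.gcd_dvd_right _ _
    have hpc : IsCoprime p (p - e ^ 2) := by
      have h := hcop.neg_right.add_mul_left_right 1
      have e' : -e ^ 2 + p * 1 = p - e ^ 2 := by ring
      rwa [e'] at h
    have hc1 := IsCoprime.of_isCoprime_of_dvd_left hpc hgp
    have h2 := hc1.dvd_of_dvd_mul_left hgB
    have h3 : (Int.gcd p ((p - e ^ 2) * (p - 81 * e ^ 2)) : ℤ) ∣ 81 * e ^ 2 := by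
      have h := dvd_sub hgp h2
      have e' : p - (p - 81 * e ^ 2) = 81 * e ^ 2 := by ring
      rwa [e'] at h
    have hc2 := IsCoprime.of_isCoprime_of_dvd_left hcop hgp
    have h4 := hc2.dvd_of_dvd_mul_right h3
    exact_mod_cast h4
  obtain ⟨d, k, hd, hk0, hgdk⟩ := dvd_81_cases _ hg81
  have hgz : (Int.gcd p ((p - e ^ 2) * (p - 81 * e ^ 2)) : ℤ) = (d : ℤ) * (k : ℤ) ^ 2 := by
    rw [hgdk]; push_cast; ring
  rw [hgz] at hab
  have hkz : (k : ℤ) ≠ 0 := by exact_mod_cast hk0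
  have hdpos : (0 : ℤ) < d := by rcases hd with rfl | rfl <;> norm_num
  have hepos : 0 < e ^ 2 := by positivity
  rcases hab with ⟨hp, hB⟩ | ⟨hp, hB⟩
  swap
  · -- negative sign: impossible
    exfalso
    have h1 : 0 < (d : ℤ) * (k : ℤ) ^ 2 * a ^ 2 := by positivity
    have h2 : 0 < (d : ℤ) * (k : ℤ) ^ 2 * b ^ 2 := by positivity
    have h3 : p - e ^ 2 < 0 := by linarith
    have h4 : p - 81 * e ^ 2 < 0 := by linarith
    have h5 := mul_pos_of_neg_of_neg h3 h4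
    linarith
  rcases hd with rfl | rfl
  swap
  · -- `d = 3`: impossible
    exfalso
    have hp' : p = 3 * (k * a) ^ 2 := by rw [hp]; push_cast; ring
    have hB' : (3 * (k * a) ^ 2 - e ^ 2) * ((k * a) ^ 2 - 27 * e ^ 2) = (k * b) ^ 2 := by
      have : (3 : ℤ) * ((3 * (k * a) ^ 2 - e ^ 2) * ((k * a) ^ 2 - 27 * e ^ 2)) =
          3 * (k * b) ^ 2 := by
        rw [hp'] at hB
        push_cast at hB
        linear_combination hB
      exact mul_left_cancel₀ (by norm_num) this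
    have h3e : (3 : ℤ) ∣ e := three_dvd_of_eq _ _ _ hB'
    have h3p : (3 : ℤ) ∣ p := ⟨(k * a) ^ 2, hp'⟩
    have h3q : (3 : ℤ) ∣ e ^ 2 := Dvd.dvd.pow h3e (by norm_num)
    have hu := hcop.isUnit_of_dvd' h3p h3q
    rw [Int.isUnit_iff] at hu
    omega
  -- `d = 1`
  have hp' : p = (k * a) ^ 2 := by rw [hp]; push_cast; ring
  have hB' : ((k * a) ^ 2 - e ^ 2) * ((k * a) ^ 2 - 81 * e ^ 2) = (k * b) ^ 2 := by
    rw [hp'] at hB
    push_cast at hB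
    linear_combination hB
  set r : ℤ := k * a with hr
  have ht0 : (k : ℤ) * b ≠ 0 := mul_ne_zero hkz hb0
  subst hp'
  -- Step 3: the common class of `r² - e²` and `r² - 81 e²`.
  obtain ⟨a₂, b₂, ha₂, hb₂, hab₂⟩ :=
    sq_factor (r ^ 2 - e ^ 2) (r ^ 2 - 81 * e ^ 2) (k * b) ht0 hB'
  have hg80 : Int.gcd (r ^ 2 - e ^ 2) (r ^ 2 - 81 * e ^ 2) ∣ 80 := by
    have hgA : (Int.gcd (r ^ 2 - e ^ 2) (r ^ 2 - 81 * e ^ 2) : ℤ) ∣ r ^ 2 - e ^ 2 :=
      Int.gcd_dvd_left _ _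
    have hgB : (Int.gcd (r ^ 2 - e ^ 2) (r ^ 2 - 81 * e ^ 2) : ℤ) ∣ r ^ 2 - 81 * e ^ 2 :=
      Int.gcd_dvd_right _ _
    obtain ⟨m, n, hmn⟩ := hcop
    have h80 : (80 : ℤ) = (81 * m + n) * (r ^ 2 - e ^ 2) - (m + n) * (r ^ 2 - 81 * e ^ 2) := by
      linear_combination -80 * hmn
    have h4 : (Int.gcd (r ^ 2 - e ^ 2) (r ^ 2 - 81 * e ^ 2) : ℤ) ∣ 80 := by
      rw [h80]
      exact dvd_sub (Dvd.dvd.mul_left hgA _) (Dvd.dvd.mul_left hgB _)
    exact_mod_cast h4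
  obtain ⟨d₂, k₂, hd₂, hk₂, hgdk₂⟩ := dvd_80_cases _ hg80
  have hgz₂ : (Int.gcd (r ^ 2 - e ^ 2) (r ^ 2 - 81 * e ^ 2) : ℤ) = (d₂ : ℤ) * (k₂ : ℤ) ^ 2 := by
    rw [hgdk₂]; push_cast; ring
  rw [hgz₂] at hab₂
  have hre : Int.gcd r e = 1 := by
    rw [← Int.isCoprime_iff_gcd_eq_one]
    exact (IsCoprime.pow_iff (by norm_num) (by norm_num)).mp hcop
  have hA : ∃ c : ℤ, (c = d₂ ∨ c = -d₂) ∧ r ^ 2 - e ^ 2 = c * (k₂ * a₂) ^ 2 ∧
      r ^ 2 - 81 * e ^ 2 = c * (k₂ * b₂) ^ 2 := by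
    rcases hab₂ with ⟨h1, h2⟩ | ⟨h1, h2⟩
    · exact ⟨d₂, Or.inl rfl, by rw [h1]; ring, by rw [h2]; ring⟩
    · exact ⟨-d₂, Or.inr rfl, by rw [h1]; ring, by rw [h2]; ring⟩
  obtain ⟨c, hc, h1, h2⟩ := hA
  rcases hd₂ with rfl | rfl | rfl | rfl
  · exact ⟨c, r, e, k₂ * a₂, k₂ * b₂, by rcases hc with rfl | rfl <;> simp, he0, rfl, rfl, h1, h2⟩
  · exfalso
    exact no_even_class c (by rcases hc with rfl | rfl <;> simp) r e _ _ hre h1 h2
  · exact ⟨c, r, e, k₂ * a₂, k₂ * b₂, by rcases hc with rfl | rfl <;> simp, he0, rfl, rfl, h1, h2⟩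
  · exfalso
    exact no_even_class c (by rcases hc with rfl | rfl <;> simp) r e _ _ hre h1 h2

/-- Classification of rational points with `y ≠ 0` on `y^2 = x (x - 1) (x - 81)`. -/
theorem classify (x y : ℚ) (hy : y ≠ 0) (h : y ^ 2 = x * (x - 1) * (x - 81)) :
    ∃ (c ρ σ θ : ℚ), (c = 1 ∨ c = -1 ∨ c = 5 ∨ c = -5) ∧ x = ρ ^ 2 ∧ x - 1 = c * σ ^ 2 ∧
      x - 81 = c * θ ^ 2 := by
  have hqpos : (0 : ℤ) < (x.den : ℤ) := by exact_mod_cast x.den_pos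
  have hcop : IsCoprime x.num (x.den : ℤ) := Rat.isCoprime_num_den x
  have hx : x = (x.num : ℚ) / ((x.den : ℤ) : ℚ) := by
    exact_mod_cast (Rat.num_div_den x).symm
  have hq0 : ((x.den : ℤ) : ℚ) ≠ 0 := by exact_mod_cast hqpos.ne'
  generalize x.num = p at *
  generalize (x.den : ℤ) = q at *
  have hY : (y * q ^ 2) ^ 2 = ((q * (p * ((p - q) * (p - 81 * q))) : ℤ) : ℚ) := by
    push_cast
    rw [mul_pow, h, hx]
    field_simp
  obtain ⟨w, hw⟩ := rat_eq_int_of_sq _ _ hY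
  have hw0 : w ≠ 0 := by
    rintro rfl
    have h0 : y * (q : ℚ) ^ 2 = 0 := by simpa using hw
    rcases mul_eq_zero.mp h0 with h1 | h1
    · exact hy h1
    · exact hq0 ((pow_eq_zero_iff (two_ne_zero)).mp h1)
  have hwz : w ^ 2 = q * (p * ((p - q) * (p - 81 * q))) := by
    rw [hw] at hY
    exact_mod_cast hY
  obtain ⟨c, r, e, u, v, hc, he0, hqe, hpr, h1, h2⟩ := classify_int p q w hqpos hcop hw0 hwz
  have he0' : (e : ℚ) ≠ 0 := by exact_mod_cast he0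
  have h1' : ((r : ℚ) ^ 2 - (e : ℚ) ^ 2) = c * (u : ℚ) ^ 2 := by exact_mod_cast h1
  have h2' : ((r : ℚ) ^ 2 - 81 * (e : ℚ) ^ 2) = c * (v : ℚ) ^ 2 := by exact_mod_cast h2
  refine ⟨c, r / e, u / e, v / e, ?_, ?_, ?_, ?_⟩
  · rcases hc with rfl | rfl | rfl | rfl <;> simp
  · rw [hx, hqe, hpr]; push_cast; field_simp
  · rw [hx, hqe, hpr]; push_cast; field_simp; linarith
  · rw [hx, hqe, hpr]; push_cast; field_simp; linarith

end Fermat.Agent.S51.D
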