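import Mathlib
import Fermat.Agent.S51.D.Classify

/-!
# The 2-adic valuation estimate for the descent

If `(t₁, t₂, t₃)` is a rational triple with `t₁² - t₂² = 1`, `t₁² - t₃² = 81`, and `z` is the
square root of the `x`-coordinate of the double of the corresponding point, then the 2-adic
valuation of `z` is negative and smaller than that of `t₁`.
-/

namespace Fermat.Agent.S51.D

local notation "v₂" => padicValRat 2

theorem v2_two : v₂ (2 : ℚ) = 1 := by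
  have := padicValRat.self (p := 2) (by norm_num)
  exact_mod_cast this

theorem v2_of_odd (n : ℤ) (h : ¬ (2 : ℤ) ∣ n) : v₂ (n : ℚ) = 0 := by
  rw [padicValRat.of_int]
  exact_mod_cast padicValInt.eq_zero_of_not_dvd (by exact_mod_cast h)

theorem v2_neg_one : v₂ (-1 : ℚ) = 0 := by
  have := v2_of_odd (-1) (by norm_num)
  exact_mod_cast this

theorem v2_of_odd_nat (n : ℕ) (h : ¬ 2 ∣ n) : v₂ (n : ℚ) = 0 := by
  rw [padicValRat.of_nat]
  exact_mod_cast padicValNat.eq_zero_of_not_dvd h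

theorem v2_nine : v₂ (9 : ℚ) = 0 := by
  have h : (9 : ℚ) = ((9 : ℕ) : ℚ) := by norm_num
  rw [h]
  exact v2_of_odd_nat 9 (by norm_num)

theorem v2_five : v₂ (5 : ℚ) = 0 := by
  have h : (5 : ℚ) = ((5 : ℕ) : ℚ) := by norm_num
  rw [h]
  exact v2_of_odd_nat 5 (by norm_num)

theorem v2_neg_nine : v₂ (-9 : ℚ) = 0 := by
  rw [padicValRat.neg]; exact v2_nine

theorem v2_neg_eighty_one : v₂ (-81 : ℚ) = 0 := by
  have := v2_of_odd (-81) (by norm_num)
  exact_mod_cast this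

theorem v2_neg_eight : v₂ (-8 : ℚ) = 3 := by
  have h : (-8 : ℚ) = -((2 : ℚ) ^ 3) := by norm_num
  rw [h, padicValRat.neg, padicValRat.pow, v2_two]
  norm_num

theorem v2_ten : v₂ (10 : ℚ) = 1 := by
  have h : (10 : ℚ) = 2 * 5 := by norm_num
  rw [h, padicValRat.mul (by norm_num) (by norm_num), v2_two, v2_five]
  norm_num

theorem v2_neg_eighty : v₂ (-80 : ℚ) = 4 := by
  have h : (-80 : ℚ) = -((2 : ℚ) ^ 4 * 5) := by norm_num
  rw [h, padicValRat.neg, padicValRat.mul (by norm_num) (by norm_num), padicValRat.pow, v2_two,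
    v2_five]
  norm_num

theorem v2_four : v₂ (4 : ℚ) = 2 := by
  have h : (4 : ℚ) = (2 : ℚ) ^ 2 := by norm_num
  rw [h, padicValRat.pow, v2_two]
  norm_num

/-- A rational of 2-adic valuation `0` has odd numerator and denominator. -/
theorem odd_num_den_of_v2_eq_zero (t : ℚ) (ht : t ≠ 0) (hv : v₂ t = 0) :
    ¬ (2 : ℤ) ∣ t.num ∧ ¬ (2 : ℤ) ∣ (t.den : ℤ) := by
  rw [padicValRat_def] at hv
  have hnum : t.num ≠ 0 := Rat.num_ne_zero.mpr ht
  by_cases hd : 2 ∣ t.den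
  · exfalso
    have h1 : 1 ≤ padicValNat 2 t.den := one_le_padicValNat_of_dvd t.den_nz hd
    have h2 : ¬ (2 : ℤ) ∣ t.num := by
      intro h
      have hcop := t.reduced
      have h3 : 2 ∣ t.num.natAbs := Int.natCast_dvd.mp (by exact_mod_cast h)
      have := Nat.dvd_gcd h3 hd
      rw [Nat.Coprime] at hcop
      rw [hcop] at this
      norm_num at this
    have h4 : padicValInt 2 t.num = 0 := padicValInt.eq_zero_of_not_dvd (by exact_mod_cast h2)
    omega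
  · have h1 : padicValNat 2 t.den = 0 := padicValNat.eq_zero_of_not_dvd hd
    have h2 : padicValInt 2 t.num = 0 := by omega
    rw [padicValInt.eq_zero_iff] at h2
    refine ⟨?_, ?_⟩
    · rcases h2 with h2 | h2 | h2
      · norm_num at h2
      · exact absurd h2 hnum
      · exact_mod_cast h2
    · intro h
      exact hd (by exact_mod_cast h)

/-- The key 2-adic fact: if `t₁` is a 2-adic unit and `t₁² - t₂² = 1` then `4 ∣ t₂`. -/
theorem two_le_v2 (t₁ t₂ : ℚ) (h : t₁ ^ 2 - t₂ ^ 2 = 1) (ht2 : t₂ ≠ 0) (hv : v₂ t₁ = 0) :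
    2 ≤ v₂ t₂ := by
  have ht1 : t₁ ≠ 0 := by
    rintro rfl
    have : 0 ≤ t₂ ^ 2 := sq_nonneg t₂
    linarith
  obtain ⟨hn, hd⟩ := odd_num_den_of_v2_eq_zero t₁ ht1 hv
  have hden0 : ((t₁.den : ℤ) : ℚ) ≠ 0 := by exact_mod_cast t₁.den_nz
  have hx : t₁ = (t₁.num : ℚ) / ((t₁.den : ℤ) : ℚ) := by
    exact_mod_cast (Rat.num_div_den t₁).symm
  generalize t₁.num = n at *
  generalize (t₁.den : ℤ) = d at *
  have hY : (t₂ * d) ^ 2 = ((n ^ 2 - d ^ 2 : ℤ) : ℚ) := by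
    have h' : t₂ ^ 2 = t₁ ^ 2 - 1 := by linarith
    push_cast
    rw [mul_pow, h', hx]
    field_simp
  obtain ⟨m, hm⟩ := rat_eq_int_of_sq _ _ hY
  have hmz : m ^ 2 = n ^ 2 - d ^ 2 := by
    rw [hm] at hY
    exact_mod_cast hY
  have hm0 : m ≠ 0 := by
    rintro rfl
    have h0 : t₂ * (d : ℚ) = 0 := by simpa using hm
    rcases mul_eq_zero.mp h0 with h1 | h1
    · exact ht2 h1
    · exact hden0 h1
  have hn8 := sq_odd_mod_eight n (by omega)
  have hd8 := sq_odd_mod_eight d (by omega)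
  have hm4 : (2 : ℤ) ^ 2 ∣ m := by
    have hme : m % 2 = 0 := by
      by_contra hme
      have := sq_odd_mod_eight m (by omega)
      omega
    obtain ⟨m₁, rfl⟩ : ∃ k, m = 2 * k := ⟨m / 2, by omega⟩
    have hm1e : m₁ % 2 = 0 := by
      by_contra hme
      have := sq_odd_mod_eight m₁ (by omega)
      have h4 : (2 * m₁) ^ 2 = 4 * m₁ ^ 2 := by ring
      omega
    obtain ⟨m₂, rfl⟩ : ∃ k, m₁ = 2 * k := ⟨m₁ / 2, by omega⟩
    exact ⟨m₂, by ring⟩
  have hvm : 2 ≤ padicValInt 2 m := by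
    have := (padicValInt_dvd_iff (p := 2) 2 m).mp (by exact_mod_cast hm4)
    rcases this with h0 | h0
    · exact absurd h0 hm0
    · exact h0
  have ht2eq : t₂ = (m : ℚ) / (d : ℚ) := by
    rw [← hm]; field_simp
  have hvd : v₂ (d : ℚ) = 0 := v2_of_odd d hd
  have hmq : (m : ℚ) ≠ 0 := by exact_mod_cast hm0
  rw [ht2eq, padicValRat.div hmq hden0, hvd, padicValRat.of_int]
  omega

/-- The 2-adic estimate: doubling strictly increases the 2-adic denominator. -/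
theorem v2_descent (t₁ t₂ t₃ z : ℚ) (h2 : t₁ ^ 2 - t₂ ^ 2 = 1) (h3 : t₁ ^ 2 - t₃ ^ 2 = 81)
    (ht2 : t₂ ≠ 0) (ht3 : t₃ ≠ 0)
    (hrel : 4 * z ^ 2 * (t₁ * t₂ * t₃) ^ 2 = (t₁ ^ 4 - 81) ^ 2) :
    v₂ z < 0 ∧ v₂ z < v₂ t₁ := by
  have ht1 : t₁ ≠ 0 := by
    rintro rfl
    have : 0 ≤ t₂ ^ 2 := sq_nonneg t₂
    linarith
  have hsq1 : t₁ ^ 2 ≠ 0 := pow_ne_zero 2 ht1
  have hm1 : t₁ ^ 2 - 1 ≠ 0 := by
    have : t₁ ^ 2 - 1 = t₂ ^ 2 := by linarith
    rw [this]; exact pow_ne_zero 2 ht2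
  have hm81 : t₁ ^ 2 - 81 ≠ 0 := by
    have : t₁ ^ 2 - 81 = t₃ ^ 2 := by linarith
    rw [this]; exact pow_ne_zero 2 ht3
  have hm9 : t₁ ^ 2 - 9 ≠ 0 := by
    intro h
    have : 0 ≤ t₃ ^ 2 := sq_nonneg t₃
    linarith
  have hp9 : t₁ ^ 2 + 9 ≠ 0 := by
    have : 0 ≤ t₁ ^ 2 := sq_nonneg t₁
    intro h; linarith
  have hD : t₁ ^ 4 - 81 ≠ 0 := by
    have : t₁ ^ 4 - 81 = (t₁ ^ 2 - 9) * (t₁ ^ 2 + 9) := by ring
    rw [this]; exact mul_ne_zero hm9 hp9
  have hz : z ≠ 0 := by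
    rintro rfl
    have : (t₁ ^ 4 - 81) ^ 2 = 0 := by rw [← hrel]; ring
    exact hD (pow_eq_zero_iff (two_ne_zero) |>.mp this)
  -- valuations
  have hA1 : v₂ (t₁ ^ 2 - 1) = 2 * v₂ t₂ := by
    have : t₁ ^ 2 - 1 = t₂ ^ 2 := by linarith
    rw [this, padicValRat.pow]; norm_num
  have hA81 : v₂ (t₁ ^ 2 - 81) = 2 * v₂ t₃ := by
    have : t₁ ^ 2 - 81 = t₃ ^ 2 := by linarith
    rw [this, padicValRat.pow]; norm_num
  have hsq : v₂ (t₁ ^ 2) = 2 * v₂ t₁ := by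
    rw [padicValRat.pow]; norm_num
  have hmain : 2 + 2 * v₂ z + 2 * (v₂ t₁ + v₂ t₂ + v₂ t₃) =
      2 * (v₂ (t₁ ^ 2 - 9) + v₂ (t₁ ^ 2 + 9)) := by
    have h := congrArg (padicValRat 2) hrel
    have e : t₁ ^ 4 - 81 = (t₁ ^ 2 - 9) * (t₁ ^ 2 + 9) := by ring
    rw [e, padicValRat.pow, padicValRat.mul hm9 hp9,
      padicValRat.mul (mul_ne_zero (by norm_num) (pow_ne_zero 2 hz))
        (pow_ne_zero 2 (mul_ne_zero (mul_ne_zero ht1 ht2) ht3)),
      padicValRat.mul (by norm_num) (pow_ne_zero 2 hz), padicValRat.pow, padicValRat.pow,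
      padicValRat.mul (mul_ne_zero ht1 ht2) ht3, padicValRat.mul ht1 ht2, v2_four] at h
    push_cast at h
    linarith
  rcases lt_trichotomy (v₂ t₁) 0 with ha | ha | ha
  · -- negative valuation
    have hlt : ∀ r : ℚ, r ≠ 0 → v₂ r = 0 → t₁ ^ 2 + r ≠ 0 → v₂ (t₁ ^ 2 + r) = 2 * v₂ t₁ := by
      intro r hr hvr hne
      rw [padicValRat.add_eq_of_lt hne hsq1 hr (by rw [hsq, hvr]; linarith), hsq]
    have e1 := hlt (-1) (by norm_num) v2_neg_one (by rw [← sub_eq_add_neg]; exact hm1)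
    have e81 := hlt (-81) (by norm_num) v2_neg_eighty_one (by rw [← sub_eq_add_neg]; exact hm81)
    have e9 := hlt (-9) (by norm_num) v2_neg_nine (by rw [← sub_eq_add_neg]; exact hm9)
    have e9' := hlt 9 (by norm_num) v2_nine hp9
    rw [← sub_eq_add_neg] at e1 e81 e9
    constructor <;> linarith
  · -- unit
    have hb : 2 ≤ v₂ t₂ := two_le_v2 t₁ t₂ h2 ht2 ha
    have e9 : v₂ (t₁ ^ 2 - 9) = 3 := by
      have e : t₁ ^ 2 - 9 = -8 + (t₁ ^ 2 - 1) := by ring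
      rw [e, padicValRat.add_eq_of_lt (by rw [← e]; exact hm9) (by norm_num) hm1
        (by rw [v2_neg_eight, hA1]; linarith), v2_neg_eight]
    have e9' : v₂ (t₁ ^ 2 + 9) = 1 := by
      have e : t₁ ^ 2 + 9 = 10 + (t₁ ^ 2 - 1) := by ring
      rw [e, padicValRat.add_eq_of_lt (by rw [← e]; exact hp9) (by norm_num) hm1
        (by rw [v2_ten, hA1]; linarith), v2_ten]
    have e81 : 4 ≤ v₂ (t₁ ^ 2 - 81) := by
      have e : t₁ ^ 2 - 81 = (t₁ ^ 2 - 1) + -80 := by ring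
      have := padicValRat.min_le_padicValRat_add (p := 2) (q := t₁ ^ 2 - 1) (r := -80)
        (by rw [← e]; exact hm81)
      rw [← e, v2_neg_eighty, hA1] at this
      have h4 : (4 : ℤ) ≤ min (2 * v₂ t₂) 4 := le_min (by linarith) le_rfl
      linarith
    constructor <;> linarith
  · -- positive valuation
    have hlt : ∀ r : ℚ, r ≠ 0 → v₂ r = 0 → r + t₁ ^ 2 ≠ 0 → v₂ (r + t₁ ^ 2) = 0 := by
      intro r hr hvr hne
      rw [padicValRat.add_eq_of_lt hne hr hsq1 (by rw [hsq, hvr]; linarith), hvr]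
    have e1 := hlt (-1) (by norm_num) v2_neg_one (by rw [neg_add_eq_sub]; exact hm1)
    have e81 := hlt (-81) (by norm_num) v2_neg_eighty_one (by rw [neg_add_eq_sub]; exact hm81)
    have e9 := hlt (-9) (by norm_num) v2_neg_nine (by rw [neg_add_eq_sub]; exact hm9)
    have e9' := hlt 9 (by norm_num) v2_nine (by rw [add_comm]; exact hp9)
    rw [neg_add_eq_sub] at e1 e81 e9
    rw [add_comm] at e9'
    constructor <;> linarith

end Fermat.Agent.S51.D
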