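import Mathlib
import Fermat.Agent.S51.D.Valuation

/-!
# Complete 2-descent on `y^2 = x (x - 1) (x - 81)` (the curve 15a2)

Main result: `Fermat.Agent.S51.D.no_nontrivial_point`, the only rational points on
`y^2 = x (x - 1) (x - 81)` have `y = 0`.

Strategy.  Call a rational triple `(t₁, t₂, t₃)` with `t₁² - t₂² = 1`, `t₁² - t₃² = 81`,
`t₂ t₃ ≠ 0` a *square triple* (it is a point whose three `x - eᵢ` are squares, i.e. a double).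
* `classify`: every point with `y ≠ 0` has `x`, `c (x - 1)`, `c (x - 81)` squares for some
  `c ∈ {1, -1, 5, -5}`; translating by a 2-torsion point gives a square triple with the same
  double (`squareTriple_of_point`).
* halving: a square triple `(z₁, z₂, z₃)` is the double of the point with
  `x = (z₁ + z₂) (z₁ + z₃)` (`descent_step`).
* `v2_descent`: doubling strictly increases the 2-adic denominator.
Hence an infinite descent on the 2-adic valuation of `z₁`.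
-/

namespace Fermat.Agent.S51.D

theorem alg_neg_one_a (R S T : ℚ) (hR : R ≠ 0) (A : R - 1 = -S) (B : R - 81 = -T) :
    81 / R - T / R = 1 ∧ 81 / R - 81 * S / R = 81 := by
  obtain rfl : S = 1 - R := by linarith
  obtain rfl : T = 81 - R := by linarith
  refine ⟨?_, ?_⟩
  · field_simp; ring
  · field_simp; ring

theorem alg_neg_one_b (R S T Z : ℚ) (hR : R ≠ 0) (A : R - 1 = -S) (B : R - 81 = -T)
    (HZ : (R ^ 2 - 81) ^ 2 = 4 * Z * (R * (R - 1) * (R - 81))) :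
    4 * Z * ((81 / R) * (T / R) * (81 * S / R)) = ((81 / R) ^ 2 - 81) ^ 2 := by
  obtain rfl : S = 1 - R := by linarith
  obtain rfl : T = 81 - R := by linarith
  field_simp
  linear_combination (-1 : ℚ) * HZ

theorem alg_neg_five_a (R S T : ℚ) (hS : S ≠ 0) (A : R - 1 = -5 * S) (B : R - 81 = -5 * T) :
    T / S - 16 / S = 1 ∧ T / S - 16 * R / S = 81 := by
  obtain rfl : R = 1 - 5 * S := by linarith
  obtain rfl : T = S + 16 := by linarith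
  refine ⟨?_, ?_⟩
  · field_simp; ring
  · field_simp; ring

theorem alg_neg_five_b (R S T Z : ℚ) (hS : S ≠ 0) (A : R - 1 = -5 * S) (B : R - 81 = -5 * T)
    (HZ : (R ^ 2 - 81) ^ 2 = 4 * Z * (R * (R - 1) * (R - 81))) :
    4 * Z * ((T / S) * (16 / S) * (16 * R / S)) = ((T / S) ^ 2 - 81) ^ 2 := by
  obtain rfl : R = 1 - 5 * S := by linarith
  obtain rfl : T = S + 16 := by linarith
  field_simp
  linear_combination (-256 / 25 : ℚ) * HZ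

theorem alg_pos_five_a (R S T : ℚ) (hT : T ≠ 0) (A : R - 1 = 5 * S) (B : R - 81 = 5 * T) :
    81 * S / T - 16 * R / T = 1 ∧ 81 * S / T - 1296 / T = 81 := by
  obtain rfl : R = 81 + 5 * T := by linarith
  obtain rfl : S = T + 16 := by linarith
  refine ⟨?_, ?_⟩
  · field_simp; ring
  · field_simp; ring

theorem alg_pos_five_b (R S T Z : ℚ) (hT : T ≠ 0) (A : R - 1 = 5 * S) (B : R - 81 = 5 * T)
    (HZ : (R ^ 2 - 81) ^ 2 = 4 * Z * (R * (R - 1) * (R - 81))) :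
    4 * Z * ((81 * S / T) * (16 * R / T) * (1296 / T)) = ((81 * S / T) ^ 2 - 81) ^ 2 := by
  obtain rfl : R = 81 + 5 * T := by linarith
  obtain rfl : S = T + 16 := by linarith
  field_simp
  linear_combination (-20736 / 25 : ℚ) * HZ

/-- From a rational point with `y ≠ 0` to a square triple with the same double. -/
theorem squareTriple_of_point (x y : ℚ) (hy : y ≠ 0) (h : y ^ 2 = x * (x - 1) * (x - 81)) :
    ∃ t₁ t₂ t₃ : ℚ, t₁ ^ 2 - t₂ ^ 2 = 1 ∧ t₁ ^ 2 - t₃ ^ 2 = 81 ∧ t₂ ≠ 0 ∧ t₃ ≠ 0 ∧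
      ∀ Z : ℚ, (x ^ 2 - 81) ^ 2 = 4 * Z * y ^ 2 →
        4 * Z * (t₁ * t₂ * t₃) ^ 2 = (t₁ ^ 4 - 81) ^ 2 := by
  obtain ⟨c, ρ, σ, θ, hc, hρ, hσ, hθ⟩ := classify x y hy h
  have hprod : x * (x - 1) * (x - 81) ≠ 0 := by
    rw [← h]; exact pow_ne_zero 2 hy
  have hx0 : x ≠ 0 := fun h0 => hprod (by rw [h0]; ring)
  have hx1 : x - 1 ≠ 0 := fun h0 => hprod (by rw [h0]; ring)
  have hx81 : x - 81 ≠ 0 := fun h0 => hprod (by rw [h0]; ring)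
  have hρ0 : ρ ≠ 0 := by
    rintro rfl; apply hx0; rw [hρ]; ring
  have hσ0 : σ ≠ 0 := by
    rintro rfl; apply hx1; rw [hσ]; ring
  have hθ0 : θ ≠ 0 := by
    rintro rfl; apply hx81; rw [hθ]; ring
  subst hρ
  have hR : ρ ^ 2 ≠ 0 := pow_ne_zero 2 hρ0
  have hS : σ ^ 2 ≠ 0 := pow_ne_zero 2 hσ0
  have hT : θ ^ 2 ≠ 0 := pow_ne_zero 2 hθ0
  rcases hc with rfl | rfl | rfl | rfl
  · -- `c = 1`
    refine ⟨ρ, σ, θ, by linarith, by linarith, hσ0, hθ0, ?_⟩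
    intro Z HZ
    have e1 : (ρ * σ * θ) ^ 2 = y ^ 2 := by
      rw [h, hσ, hθ]; ring
    have e2 : ρ ^ 4 = (ρ ^ 2) ^ 2 := by ring
    rw [e1, e2]; exact HZ.symm
  · -- `c = -1`
    have A : ρ ^ 2 - 1 = -(σ ^ 2) := by linarith
    have B : ρ ^ 2 - 81 = -(θ ^ 2) := by linarith
    obtain ⟨g1, g2⟩ := alg_neg_one_a (ρ ^ 2) (σ ^ 2) (θ ^ 2) hR A B
    refine ⟨9 / ρ, θ / ρ, 9 * σ / ρ, ?_, ?_, div_ne_zero hθ0 hρ0,
      div_ne_zero (mul_ne_zero (by norm_num) hσ0) hρ0, ?_⟩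
    · rw [← g1]; ring
    · rw [← g2]; ring
    · intro Z HZ
      have g3 := alg_neg_one_b (ρ ^ 2) (σ ^ 2) (θ ^ 2) Z hR A B (by rw [HZ, h])
      have e1 : (9 / ρ * (θ / ρ) * (9 * σ / ρ)) ^ 2 =
          (81 / ρ ^ 2) * (θ ^ 2 / ρ ^ 2) * (81 * σ ^ 2 / ρ ^ 2) := by ring
      have e2 : (9 / ρ) ^ 4 = (81 / ρ ^ 2) ^ 2 := by ring
      rw [e1, e2]; exact g3
  · -- `c = 5`
    have A : ρ ^ 2 - 1 = 5 * σ ^ 2 := by linarith
    have B : ρ ^ 2 - 81 = 5 * θ ^ 2 := by linarith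
    obtain ⟨g1, g2⟩ := alg_pos_five_a (ρ ^ 2) (σ ^ 2) (θ ^ 2) hT A B
    refine ⟨9 * σ / θ, 4 * ρ / θ, 36 / θ, ?_, ?_,
      div_ne_zero (mul_ne_zero (by norm_num) hρ0) hθ0, div_ne_zero (by norm_num) hθ0, ?_⟩
    · rw [← g1]; ring
    · rw [← g2]; ring
    · intro Z HZ
      have g3 := alg_pos_five_b (ρ ^ 2) (σ ^ 2) (θ ^ 2) Z hT A B (by rw [HZ, h])
      have e1 : (9 * σ / θ * (4 * ρ / θ) * (36 / θ)) ^ 2 =
          (81 * σ ^ 2 / θ ^ 2) * (16 * ρ ^ 2 / θ ^ 2) * (1296 / θ ^ 2) := by ring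
      have e2 : (9 * σ / θ) ^ 4 = (81 * σ ^ 2 / θ ^ 2) ^ 2 := by ring
      rw [e1, e2]; exact g3
  · -- `c = -5`
    have A : ρ ^ 2 - 1 = -5 * σ ^ 2 := by linarith
    have B : ρ ^ 2 - 81 = -5 * θ ^ 2 := by linarith
    obtain ⟨g1, g2⟩ := alg_neg_five_a (ρ ^ 2) (σ ^ 2) (θ ^ 2) hS A B
    refine ⟨θ / σ, 4 / σ, 4 * ρ / σ, ?_, ?_, div_ne_zero (by norm_num) hσ0,
      div_ne_zero (mul_ne_zero (by norm_num) hρ0) hσ0, ?_⟩
    · rw [← g1]; ring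
    · rw [← g2]; ring
    · intro Z HZ
      have g3 := alg_neg_five_b (ρ ^ 2) (σ ^ 2) (θ ^ 2) Z hS A B (by rw [HZ, h])
      have e1 : (θ / σ * (4 / σ) * (4 * ρ / σ)) ^ 2 =
          (θ ^ 2 / σ ^ 2) * (16 / σ ^ 2) * (16 * ρ ^ 2 / σ ^ 2) := by ring
      have e2 : (θ / σ) ^ 4 = (θ ^ 2 / σ ^ 2) ^ 2 := by ring
      rw [e1, e2]; exact g3

/-- One descent step: a square triple is the double of (a translate of) another one. -/
theorem descent_step (z₁ z₂ z₃ : ℚ) (h2 : z₁ ^ 2 - z₂ ^ 2 = 1) (h3 : z₁ ^ 2 - z₃ ^ 2 = 81) :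
    ∃ t₁ t₂ t₃ : ℚ, t₁ ^ 2 - t₂ ^ 2 = 1 ∧ t₁ ^ 2 - t₃ ^ 2 = 81 ∧ t₂ ≠ 0 ∧ t₃ ≠ 0 ∧
      4 * z₁ ^ 2 * (t₁ * t₂ * t₃) ^ 2 = (t₁ ^ 4 - 81) ^ 2 := by
  have h12 : z₁ + z₂ ≠ 0 := by
    intro h0
    have e : z₁ ^ 2 - z₂ ^ 2 = (z₁ + z₂) * (z₁ - z₂) := by ring
    rw [e, h0] at h2
    norm_num at h2
  have h13 : z₁ + z₃ ≠ 0 := by
    intro h0
    have e : z₁ ^ 2 - z₃ ^ 2 = (z₁ + z₃) * (z₁ - z₃) := by ring
    rw [e, h0] at h3
    norm_num at h3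
  have h23 : z₂ + z₃ ≠ 0 := by
    intro h0
    have e : z₃ ^ 2 - z₂ ^ 2 = (z₂ + z₃) * (z₃ - z₂) := by ring
    have h80 : z₃ ^ 2 - z₂ ^ 2 = -80 := by linarith
    rw [e, h0] at h80
    norm_num at h80
  have hy0 : (z₁ + z₂) * (z₁ + z₃) * (z₂ + z₃) ≠ 0 := mul_ne_zero (mul_ne_zero h12 h13) h23
  have hcurve : ((z₁ + z₂) * (z₁ + z₃) * (z₂ + z₃)) ^ 2 =
      ((z₁ + z₂) * (z₁ + z₃)) * ((z₁ + z₂) * (z₁ + z₃) - 1) * ((z₁ + z₂) * (z₁ + z₃) - 81) := by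
    have e1 : (z₁ + z₂) * (z₁ + z₃) - 1 = (z₂ + z₁) * (z₂ + z₃) := by linear_combination h2
    have e2 : (z₁ + z₂) * (z₁ + z₃) - 81 = (z₃ + z₁) * (z₃ + z₂) := by linear_combination h3
    rw [e1, e2]; ring
  have hkey : ((z₁ + z₂) * (z₁ + z₃)) ^ 2 - 81 =
      2 * z₁ * ((z₁ + z₂) * (z₁ + z₃) * (z₂ + z₃)) := by
    linear_combination (z₁ ^ 2 - z₃ ^ 2) * h2 + h3
  obtain ⟨t₁, t₂, t₃, g1, g2, g3, g4, g5⟩ := squareTriple_of_point _ _ hy0 hcurve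
  exact ⟨t₁, t₂, t₃, g1, g2, g3, g4, g5 (z₁ ^ 2) (by rw [hkey]; ring)⟩

/-- There is no square triple: infinite descent on the 2-adic valuation of `z₁`. -/
theorem no_squareTriple_aux : ∀ (n : ℕ) (z₁ z₂ z₃ : ℚ), (-(padicValRat 2 z₁)).toNat = n →
    z₁ ^ 2 - z₂ ^ 2 = 1 → z₁ ^ 2 - z₃ ^ 2 = 81 → False := by
  intro n
  induction n using Nat.strong_induction_on with
  | _ n ih =>
    intro z₁ z₂ z₃ hn h2 h3
    obtain ⟨t₁, t₂, t₃, g1, g2, g3, g4, g5⟩ := descent_step z₁ z₂ z₃ h2 h3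
    obtain ⟨hv1, hv2⟩ := v2_descent t₁ t₂ t₃ z₁ g1 g2 g3 g4 g5
    exact ih _ (by omega) t₁ t₂ t₃ rfl g1 g2

/-- No rational `z₁` has both `z₁² - 1` and `z₁² - 81` rational squares. -/
theorem no_squareTriple (z₁ z₂ z₃ : ℚ) (h2 : z₁ ^ 2 - z₂ ^ 2 = 1) (h3 : z₁ ^ 2 - z₃ ^ 2 = 81) :
    False :=
  no_squareTriple_aux _ z₁ z₂ z₃ rfl h2 h3

/-- **Rational points on 15a2.**  The only rational points on `y^2 = x (x - 1) (x - 81)` are
the three points of order two (and the point at infinity). -/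
theorem no_nontrivial_point : ∀ x y : ℚ, y ^ 2 = x * (x - 1) * (x - 81) → y = 0 := by
  intro x y h
  by_contra hy
  obtain ⟨t₁, t₂, t₃, g1, g2, -, -, -⟩ := squareTriple_of_point x y hy h
  exact no_squareTriple t₁ t₂ t₃ g1 g2

end Fermat.Agent.S51.D
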